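import Mathlib

/-!
# Regular parameters of power series rings

`params R ϖ r` is the sequence `X₀, …, X_{r-1}, C ϖ` in `MvPowerSeries (Fin r) R`. It is weakly
regular for a nonzero `ϖ` in a domain (`isWeaklyRegular_params`) and generates the maximal
ideal for a uniformiser of a discrete valuation ring (`ofList_params`), by induction through
`killHead`, which sets `X₀` to zero.
-/

set_option autoImplicit false

namespace FLTAgent.Small

open IsLocalRing RingTheory.Sequence Pointwise

/-- If `x` is regular and generates the kernel of a surjection, regular sequences lift. -/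
theorem isWeaklyRegular_cons_of_surjective {A B : Type*} [CommRing A] [CommRing B] (f : A →+* B)
    (hf : Function.Surjective f) {x : A} (hker : RingHom.ker f = Ideal.span {x})
    (hx : IsSMulRegular A x) {rs : List A} (h : IsWeaklyRegular B (rs.map f)) :
    IsWeaklyRegular A (x :: rs) := by
  let := f.toAlgebra
  refine (isWeaklyRegular_cons_iff A x rs).2 ⟨hx, ?_⟩
  have hk : (x • ⊤ : Submodule A A) = LinearMap.ker (Algebra.linearMap A B) := by
    ext a
    rw [LinearMap.mem_ker, Algebra.linearMap_apply, RingHom.algebraMap_toAlgebra,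
      ← RingHom.mem_ker, hker, Ideal.mem_span_singleton', Submodule.mem_smul_pointwise_iff_exists]
    simp [mul_comm]
  let e : QuotSMulTop x A ≃ₗ[A] B := (Submodule.quotEquivOfEq _ _ hk).trans
    (LinearMap.quotKerEquivOfSurjective (Algebra.linearMap A B) hf)
  rw [e.isWeaklyRegular_congr rs, ← isWeaklyRegular_map_algebraMap_iff (S := B) (M := B) rs]
  exact h

variable (R : Type*) [CommRing R]

/-- The sequence `X₀, …, X_{r-1}, C ϖ`. -/
noncomputable def params (ϖ : R) (r : ℕ) : List (MvPowerSeries (Fin r) R) :=
  List.ofFn (fun i => MvPowerSeries.X i) ++ [MvPowerSeries.C ϖ]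

theorem length_params (ϖ : R) (r : ℕ) : (params R ϖ r).length = r + 1 := by simp [params]

/-- Setting the variable `X₀` to zero. -/
noncomputable def killHead (r : ℕ) :
    MvPowerSeries (Fin (r + 1)) R →+* MvPowerSeries (Fin r) R :=
  (PowerSeries.constantCoeff).comp (MvPowerSeries.finSuccEquiv R r).toRingEquiv.toRingHom

theorem killHead_apply (r : ℕ) (g : MvPowerSeries (Fin (r + 1)) R) :
    killHead R r g = PowerSeries.constantCoeff (MvPowerSeries.finSuccEquiv R r g) := rfl

theorem killHead_surjective (r : ℕ) : Function.Surjective (killHead R r) := fun g =>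
  ⟨(MvPowerSeries.finSuccEquiv R r).symm (PowerSeries.C g), by simp [killHead_apply]⟩

theorem ker_killHead (r : ℕ) :
    RingHom.ker (killHead R r) = Ideal.span {MvPowerSeries.X 0} := by
  ext g
  rw [RingHom.mem_ker, killHead_apply, ← PowerSeries.X_dvd_iff, Ideal.mem_span_singleton,
    ← MvPowerSeries.finSuccEquiv_X_zero, map_dvd_iff]

theorem map_killHead_params (ϖ : R) (r : ℕ) :
    (List.ofFn (fun i : Fin r => (MvPowerSeries.X i.succ : MvPowerSeries (Fin (r + 1)) R))
      ++ [MvPowerSeries.C ϖ]).map (killHead R r) = params R ϖ r := by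
  simp [params, killHead_apply, List.map_ofFn, Function.comp_def]

theorem params_succ (ϖ : R) (r : ℕ) : params R ϖ (r + 1) = MvPowerSeries.X 0 ::
    (List.ofFn (fun i : Fin r => (MvPowerSeries.X i.succ : MvPowerSeries (Fin (r + 1)) R))
      ++ [MvPowerSeries.C ϖ]) := by
  simp [params, List.ofFn_succ]

/-- `X₀, …, X_{r-1}, C ϖ` is weakly regular for nonzero `ϖ`. -/
theorem isWeaklyRegular_params [IsDomain R] {ϖ : R} (hϖ : ϖ ≠ 0) (r : ℕ) :
    IsWeaklyRegular (MvPowerSeries (Fin r) R) (params R ϖ r) := by
  induction r with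
  | zero =>
    have hC : (MvPowerSeries.C ϖ : MvPowerSeries (Fin 0) R) ≠ 0 := by
      rw [Ne, ← map_zero (MvPowerSeries.C (σ := Fin 0) (R := R)),
        MvPowerSeries.C_injective.eq_iff]
      exact hϖ
    simpa [params, isWeaklyRegular_singleton_iff] using
      (IsSMulRegular.of_right_eq_zero_of_smul fun g hg =>
        (mul_eq_zero.1 hg).resolve_left hC : IsSMulRegular (MvPowerSeries (Fin 0) R) _)
  | succ r ih =>
    rw [params_succ]
    refine isWeaklyRegular_cons_of_surjective (killHead R r) (killHead_surjective R r)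
      (ker_killHead R r) ?_ ?_
    · have hX : (MvPowerSeries.X 0 : MvPowerSeries (Fin (r + 1)) R) ≠ 0 := fun h => by
        have := congrArg (MvPowerSeries.finSuccEquiv R r) h
        rw [MvPowerSeries.finSuccEquiv_X_zero, map_zero] at this
        exact PowerSeries.X_ne_zero this
      exact IsSMulRegular.of_right_eq_zero_of_smul fun g hg =>
        (mul_eq_zero.1 hg).resolve_left hX
    · rwa [map_killHead_params]

/-- `X₀, …, X_{r-1}, C ϖ` generates the maximal ideal when `ϖ` is a uniformiser. -/
theorem ofList_params [IsDomain R] [IsDiscreteValuationRing R] {ϖ : R} (hϖ : Irreducible ϖ)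
    (r : ℕ) : Ideal.ofList (params R ϖ r) = maximalIdeal (MvPowerSeries (Fin r) R) := by
  induction r with
  | zero =>
    rw [params, List.ofFn_zero, List.nil_append, Ideal.ofList_singleton]
    ext g
    rw [Ideal.mem_span_singleton, mem_maximalIdeal, mem_nonunits_iff,
      MvPowerSeries.isUnit_iff_constantCoeff, ← mem_nonunits_iff, ← mem_maximalIdeal,
      hϖ.maximalIdeal_eq, Ideal.mem_span_singleton,
      ← map_dvd_iff (MvPowerSeries.isEmptyEquiv (Fin 0) R)]
    simp
  | succ r ih =>
    have hmax : maximalIdeal (MvPowerSeries (Fin (r + 1)) R) =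
        (maximalIdeal (MvPowerSeries (Fin r) R)).comap (killHead R r) :=
      (IsLocalRing.eq_maximalIdeal
        (Ideal.comap_isMaximal_of_surjective _ (killHead_surjective R r))).symm
    rw [hmax, params_succ, ← ih, ← map_killHead_params, ← Ideal.map_ofList,
      Ideal.comap_map_of_surjective _ (killHead_surjective R r), Ideal.ofList_cons,
      ← RingHom.ker_eq_comap_bot, ker_killHead, sup_comm]

end FLTAgent.Small
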