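import Mathlib

/-!
# Freeness of modules with a long regular sequence

`free_of_isWeaklyRegular`: a finite module over a Noetherian local ring with a regular sequence
as long as some generating family of the maximal ideal is free (a form of Auslander–Buchsbaum).
Induction on the length: prime avoidance gives a regular element outside the square of the
maximal ideal, which replaces one generator (`exists_succAbove_span`). Used for S57 and for
factoriality of two-dimensional regular local rings.
-/

set_option autoImplicit false

namespace FLTAgent.Small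

open IsLocalRing RingTheory.Sequence Pointwise

/-- Replace one of the generators of the maximal ideal by an element outside its square. -/
theorem exists_succAbove_span {A : Type*} [CommRing A] [IsLocalRing A] {n : ℕ}
    (gs : Fin (n + 1) → A) (hgs : Ideal.span (Set.range gs) = maximalIdeal A) {x : A}
    (hx : x ∈ maximalIdeal A) (hx2 : x ∉ maximalIdeal A ^ 2) :
    ∃ j : Fin (n + 1),
      Ideal.span {x} ⊔ Ideal.span (Set.range (gs ∘ j.succAbove)) = maximalIdeal A := by
  obtain ⟨c, hc⟩ := (Ideal.mem_span_range_iff_exists_fun).1 (hgs.symm ▸ hx)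
  have hg : ∀ i, gs i ∈ maximalIdeal A := fun i => hgs ▸ Ideal.subset_span ⟨i, rfl⟩
  obtain ⟨j, hj⟩ : ∃ j, IsUnit (c j) := by
    by_contra h
    push Not at h
    refine hx2 ?_
    rw [← hc, pow_two]
    exact Ideal.sum_mem _ fun i _ =>
      Ideal.mul_mem_mul ((IsLocalRing.mem_maximalIdeal _).2 (h i)) (hg i)
  refine ⟨j, le_antisymm (sup_le ?_ ?_) ?_⟩
  · exact (Ideal.span_singleton_le_iff_mem _).2 hx
  · rw [Ideal.span_le]
    rintro _ ⟨i, rfl⟩
    exact hg _
  · rw [← hgs, Ideal.span_le]
    rintro _ ⟨i, rfl⟩
    set J := Ideal.span {x} ⊔ Ideal.span (Set.range (gs ∘ j.succAbove))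
    have hother : ∀ k, gs (j.succAbove k) ∈ J := fun k =>
      Ideal.mem_sup_right (Ideal.subset_span ⟨k, rfl⟩)
    rcases Fin.eq_self_or_eq_succAbove j i with rfl | ⟨k, rfl⟩
    · rw [SetLike.mem_coe, ← Ideal.unit_mul_mem_iff_mem J hj]
      have : c i * gs i = x - ∑ k, c (i.succAbove k) * gs (i.succAbove k) := by
        rw [← hc, Fin.sum_univ_succAbove _ i]; ring
      rw [this]
      exact J.sub_mem (Ideal.mem_sup_left (Ideal.mem_span_singleton_self x))
        (J.sum_mem fun k _ => J.mul_mem_left _ (hother k))
    · exact hother k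

/-- A finite module over a Noetherian local ring with a regular sequence in the maximal ideal as
long as some generating family of the maximal ideal is free. -/
theorem free_of_isWeaklyRegular (n : ℕ) :
    ∀ {A : Type} [CommRing A] [IsLocalRing A] [IsNoetherianRing A] (gs : Fin n → A)
      (_ : Ideal.span (Set.range gs) = maximalIdeal A)
      {N : Type} [AddCommGroup N] [Module A N] [Module.Finite A N] (ys : List A)
      (_ : ys.length = n) (_ : ∀ y ∈ ys, y ∈ maximalIdeal A) (_ : IsWeaklyRegular N ys),
      Module.Free A N := by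
  induction n with
  | zero =>
    intro A _ _ _ gs hgs N _ _ _ ys _ _ _
    have : maximalIdeal A = ⊥ := by
      rw [← hgs, Set.range_eq_empty, Ideal.span_empty]
    let := (IsLocalRing.isField_iff_maximalIdeal_eq.2 this).toField
    infer_instance
  | succ n ih =>
    intro A _ _ _ gs hgs N _ _ _ ys hlen hmem hreg
    rcases subsingleton_or_nontrivial N with hN | hN
    · infer_instance
    obtain ⟨ys', y, rfl⟩ : ∃ ys' y, ys = ys' ++ [y] := by
      rcases List.eq_nil_or_concat' ys with rfl | h
      · simp at hlen
      · exact h
    have hlen' : ys'.length = n := by simpa using hlen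
    have hmem' : ∀ z ∈ ys', z ∈ maximalIdeal A := fun z hz => hmem z (List.mem_append_left _ hz)
    have hy : y ∈ maximalIdeal A := hmem y (by simp)
    obtain ⟨hreg', hy'⟩ := (isWeaklyRegular_append_iff N ys' [y]).1 hreg
    let Q := N ⧸ (Ideal.ofList ys' • ⊤ : Submodule A N)
    replace hy' : IsSMulRegular Q y := (isWeaklyRegular_singleton_iff Q y).1 hy'
    have hQ : Nontrivial Q := Submodule.Quotient.nontrivial_iff.2
      (Submodule.top_ne_ideal_smul_of_le_jacobson_annihilator
        ((Ideal.span_le.2 hmem').trans (maximalIdeal_le_jacobson _))).symm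
    -- an element of the maximal ideal outside its square which is regular on `Q`
    obtain ⟨x, hxm, hx2, hxQ⟩ : ∃ x ∈ maximalIdeal A, x ∉ maximalIdeal A ^ 2 ∧
        IsSMulRegular Q x := by
      by_contra h
      push Not at h
      have hsub : (maximalIdeal A : Set A) ⊆
          ⋃ P ∈ insert (maximalIdeal A ^ 2) (associatedPrimes A Q), (P : Set A) := by
        intro z hz
        rw [Set.biUnion_insert]
        by_cases hz2 : z ∈ maximalIdeal A ^ 2
        · exact Or.inl hz2
        · refine Or.inr ?_
          rw [biUnion_associatedPrimes_eq_zero_divisors]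
          obtain ⟨q, hq0, hq⟩ : ∃ q : Q, z • q = 0 ∧ q ≠ 0 := by
            by_contra hc
            push Not at hc
            exact h z hz hz2 (.of_right_eq_zero_of_smul fun q hq => hc q hq)
          exact ⟨q, hq, hq0⟩
      obtain ⟨P, hP, hmP⟩ :=
        (Ideal.subset_union_prime_finite ((associatedPrimes.finite A Q).insert _)
          (f := fun P => P) (maximalIdeal A ^ 2) (maximalIdeal A ^ 2)
          (fun P hP hne _ => ((Set.mem_insert_iff.1 hP).resolve_left hne).isPrime)).1 hsub
      rcases Set.mem_insert_iff.1 hP with rfl | hP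
      · have hbot : maximalIdeal A = ⊥ := by
          refine Submodule.eq_bot_of_le_smul_of_le_jacobson_bot (maximalIdeal A) (maximalIdeal A)
            (maximalIdeal A).fg_of_isNoetherianRing ?_ (maximalIdeal_le_jacobson _)
          rwa [smul_eq_mul, ← pow_two]
        have : y = 0 := by simpa [hbot] using hy
        obtain ⟨q, hq⟩ := exists_ne (0 : Q)
        exact hq (hy'.right_eq_zero_of_smul (by simp [this]))
      · have : y ∈ ⋃ P ∈ associatedPrimes A Q, (P : Set A) :=
          Set.mem_biUnion hP (hmP hy)
        rw [biUnion_associatedPrimes_eq_zero_divisors] at this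
        obtain ⟨q, hq, hyq⟩ := this
        exact hq (hy'.right_eq_zero_of_smul hyq)
    have hperm : IsWeaklyRegular N (x :: ys') := by
      refine IsLocalRing.isWeaklyRegular_of_perm_of_subset_maximalIdeal
        ((isWeaklyRegular_append_iff N ys' [x]).2
          ⟨hreg', (isWeaklyRegular_singleton_iff Q x).2 hxQ⟩) (List.perm_append_singleton x ys') ?_
      intro z hz
      rcases List.mem_append.1 hz with hz | hz
      · exact hmem' z hz
      · simp at hz; exact hz ▸ hxm
    obtain ⟨hxN, hrest⟩ := (isWeaklyRegular_cons_iff' N x ys').1 hperm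
    have hne : Ideal.span {x} ≠ (⊤ : Ideal A) :=
      ne_top_of_le_ne_top (maximalIdeal.isMaximal A).ne_top
        ((Ideal.span_singleton_le_iff_mem _).2 hxm)
    have : Nontrivial (A ⧸ Ideal.span {x}) := Ideal.Quotient.nontrivial_iff.2 hne
    have : IsLocalRing (A ⧸ Ideal.span {x}) :=
      .of_surjective' _ Ideal.Quotient.mk_surjective
    have hmax : (maximalIdeal A).map (Ideal.Quotient.mk (Ideal.span {x})) =
        maximalIdeal (A ⧸ Ideal.span {x}) :=
      IsLocalRing.map_maximalIdeal_of_surjective _ Ideal.Quotient.mk_surjective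
    obtain ⟨j, hj⟩ := exists_succAbove_span gs hgs hxm hx2
    have hfree : Module.Free (A ⧸ Ideal.span {x}) (QuotSMulTop x N) := by
      have : Module.Finite (A ⧸ Ideal.span {x}) (QuotSMulTop x N) :=
        Module.Finite.of_restrictScalars_finite A _ _
      refine ih (A := A ⧸ Ideal.span {x})
        (Ideal.Quotient.mk (Ideal.span {x}) ∘ (gs ∘ j.succAbove)) ?_ _ ?_ ?_ hrest
      · rw [← hmax, ← hj, Ideal.map_sup, Ideal.map_quotient_self, bot_sup_eq, Ideal.map_span,
          Set.range_comp]
      · simp [hlen']
      · intro z hz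
        obtain ⟨w, hw, rfl⟩ := List.mem_map.1 hz
        rw [← hmax]
        exact Ideal.mem_map_of_mem _ (hmem' w hw)
    have : Module.FinitePresentation A N := Module.finitePresentation_of_finite A N
    exact (Module.free_quotSMulTop_iff_free A N (maximalIdeal_le_jacobson _ hxm) hxN).1 hfree

end FLTAgent.Small
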